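import Fermat.Agent.S55.G.Rec.Spec2
import Fermat.Agent.S55.G.Rec.VdegH707
import Fermat.Agent.S55.G.Rec.RelNormH707
import Fermat.Agent.S55.G.Rec.SupportFiniteH181
import Fermat.Agent.S55.Bridge.H175.LocalLevel

/-!
# S55 / G / REC : leaf G3 (`WeakApproxSpec`), part 1: local facts   (helper900)

* `fixingSubgroup_localLevel_map` : `Gal(ℚ̄_q / ℚ_q·ι(g⁻¹K)) = locSub q g U`, `K = ℚ̄^U`, `U` open;
* `isFixedBy_iff_mem_localLevel` : the fixed field of `locSub q g U` is `ℚ_q·ι(g⁻¹K)`;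
* `exists_near_of_mem_localLevel` : `ι(F)` is dense in `ℚ_q·ι(F)`;
* `exists_isUniformizer` : open subgroups have uniformizers;
* `exists_global_isUniformizer` : a uniformizer at the place `ι_q ∘ g⁻¹` of `K` can be chosen in `K`.
-/

set_option autoImplicit false
set_option linter.style.haveILetI false

noncomputable section

namespace Fermat.Agent.S55.G.Rec.WAH900

open Fermat.Agent.S55.G.Rec

local notation "Qb" => AlgebraicClosure ℚ
local notation "GQ" => (AlgebraicClosure ℚ ≃ₐ[ℚ] AlgebraicClosure ℚ)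

/-! ## Global: open subgroups and their fixed fields -/

/-- The fixed field of `U`. -/
abbrev fixedK (U : Subgroup GQ) : IntermediateField ℚ Qb := IntermediateField.fixedField U

lemma isClosed_of_isOpenQ {U : Subgroup GQ} (hU : IsOpenQ U) : IsClosed (U : Set GQ) := by
  obtain ⟨F, hF, hle⟩ := hU
  haveI := hF
  exact Subgroup.isClosed_of_isOpen U
    (Subgroup.isOpen_mono hle (IntermediateField.fixingSubgroup_isOpen F))

lemma fixingSubgroup_fixedK {U : Subgroup GQ} (hU : IsOpenQ U) :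
    (fixedK U).fixingSubgroup = U := by
  haveI := RelNormH707.isGalois_global
  exact InfiniteGalois.fixingSubgroup_fixedField ⟨U, isClosed_of_isOpenQ hU⟩

lemma finiteDimensional_fixedK {U : Subgroup GQ} (hU : IsOpenQ U) :
    FiniteDimensional ℚ (fixedK U) := by
  obtain ⟨F, hF, hle⟩ := hU
  haveI := hF
  haveI := RelNormH707.isGalois_global
  have h1 : fixedK U ≤ F := by
    have h2 : fixedK U ≤ IntermediateField.fixedField F.fixingSubgroup := by
      intro x hx
      rw [IntermediateField.mem_fixedField_iff] at hx ⊢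
      exact fun σ hσ => hx σ (hle hσ)
    rwa [InfiniteGalois.fixedField_fixingSubgroup F] at h2
  exact Module.Finite.of_injective (IntermediateField.inclusion h1).toLinearMap
    (IntermediateField.inclusion h1).injective

lemma mem_fixedK_iff {U : Subgroup GQ} {x : Qb} : x ∈ fixedK U ↔ ∀ u ∈ U, u x = x :=
  IntermediateField.mem_fixedField_iff U x

lemma gFixed_iff {U : Subgroup GQ} {a : Qbˣ} : GFixed U a ↔ (a : Qb) ∈ fixedK U := by
  rw [mem_fixedK_iff]
  constructor
  · intro h u hu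
    have := congrArg (fun z : Qbˣ => (z : Qb)) (h u hu)
    exact this
  · intro h u hu
    exact Units.ext (h u hu)

/-! ## Local: the fixed field of `locSub q g U` -/

section Local

variable (q : ℕ) [Fact q.Prime]

local notation "Gq" => (PadicAlgCl q ≃ₐ[ℚ_[q]] PadicAlgCl q)

/-- The local field of `K = ℚ̄^U` at the place `ι_q ∘ g⁻¹`. -/
abbrev locFld (g : GQ) (U : Subgroup GQ) : IntermediateField ℚ_[q] (PadicAlgCl q) :=
  Bridge.H175.localLevel q ((fixedK U).map (g⁻¹ : GQ).toAlgHom)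

lemma fixingSubgroup_locFld (g : GQ) {U : Subgroup GQ} (hU : IsOpenQ U) :
    (locFld q g U).fixingSubgroup = locSub q g U := by
  ext τ
  rw [Bridge.H175.mem_fixingSubgroup_localLevel_iff, mem_fixingSubgroup_map_inv,
    fixingSubgroup_fixedK hU, mem_locSub]

lemma isFixedBy_iff_mem_locFld (g : GQ) {U : Subgroup GQ} (hU : IsOpenQ U) (x : PadicAlgCl q) :
    IsFixedBy q (locSub q g U) x ↔ x ∈ locFld q g U := by
  haveI := RelNormH707.isGalois_local q
  have h : IntermediateField.fixedField (locFld q g U).fixingSubgroup = locFld q g U :=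
    InfiniteGalois.fixedField_fixingSubgroup _
  rw [← h, fixingSubgroup_locFld q g hU, IntermediateField.mem_fixedField_iff]
  rfl

lemma padicEmbedding_mem_locFld (g : GQ) (U : Subgroup GQ) {x : Qb} (hx : x ∈ fixedK U) :
    padicEmbedding q ((g⁻¹ : GQ) x) ∈ locFld q g U :=
  Bridge.H175.padicEmbedding_mem_localLevel ⟨x, hx, rfl⟩

/-! ## Density of `ι(F)` in `ℚ_q · ι(F)` -/

/-- The image of `F` under `ι_q` as a subfield of `ℚ̄_q`. -/
def imageSubfield (F : IntermediateField ℚ Qb) : Subfield (PadicAlgCl q) :=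
  F.toSubfield.map (padicEmbedding q).toRingHom

lemma mem_imageSubfield {F : IntermediateField ℚ Qb} {y : PadicAlgCl q} :
    y ∈ imageSubfield q F ↔ ∃ x ∈ F, padicEmbedding q x = y := by
  unfold imageSubfield
  rw [Subfield.mem_map]
  rfl

lemma algebraMap_mem_closure (F : IntermediateField ℚ Qb) (c : ℚ_[q]) :
    algebraMap ℚ_[q] (PadicAlgCl q) c ∈ (imageSubfield q F).topologicalClosure := by
  have hd : DenseRange ((↑) : ℚ → ℚ_[q]) := Padic.denseRange_ratCast q
  have hcont : Continuous (algebraMap ℚ_[q] (PadicAlgCl q)) :=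
    (algebraMapCLM ℚ_[q] (PadicAlgCl q)).continuous
  have hsub : Set.range ((↑) : ℚ → ℚ_[q]) ⊆
      (algebraMap ℚ_[q] (PadicAlgCl q)) ⁻¹' ((imageSubfield q F).topologicalClosure : Set _) := by
    rintro _ ⟨r, rfl⟩
    apply Subfield.le_topologicalClosure
    rw [map_ratCast]
    exact SubfieldClass.ratCast_mem _ r
  have hclosed : IsClosed ((algebraMap ℚ_[q] (PadicAlgCl q)) ⁻¹'
      ((imageSubfield q F).topologicalClosure : Set _)) :=
    (Subfield.isClosed_topologicalClosure _).preimage hcont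
  have := closure_minimal hsub hclosed
  rw [hd.closure_range] at this
  exact this (Set.mem_univ c)

/-- `ι(F)` is dense in the local level `ℚ_q · ι(F)`. -/
theorem exists_near_of_mem_localLevel (F : IntermediateField ℚ Qb) {x : PadicAlgCl q}
    (hx : x ∈ Bridge.H175.localLevel q F) {ε : ℝ} (hε : 0 < ε) :
    ∃ y ∈ F, ‖x - padicEmbedding q y‖ < ε := by
  -- the closure of `ι(F)` is an intermediate field containing `ι(F)`
  let C : IntermediateField ℚ_[q] (PadicAlgCl q) :=
    { (imageSubfield q F).topologicalClosure with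
      algebraMap_mem' := algebraMap_mem_closure q F }
  have hle : Bridge.H175.localLevel q F ≤ C := by
    unfold Bridge.H175.localLevel
    rw [IntermediateField.adjoin_le_iff]
    rintro _ ⟨y, hy, rfl⟩
    exact Subfield.le_topologicalClosure _ ((mem_imageSubfield q).2 ⟨y, hy, rfl⟩)
  have hxC : x ∈ closure (imageSubfield q F : Set (PadicAlgCl q)) := hle hx
  obtain ⟨z, hz, hxz⟩ := Metric.mem_closure_iff.1 hxC ε hε
  obtain ⟨y, hy, rfl⟩ := (mem_imageSubfield q).1 hz
  exact ⟨y, hy, by rwa [dist_eq_norm] at hxz⟩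

/-! ## Uniformizers -/

lemma norm_eq_of_norm_sub_lt {x y : PadicAlgCl q} (h : ‖x - y‖ < ‖x‖) : ‖y‖ = ‖x‖ := by
  apply le_antisymm
  · have h1 : ‖y‖ = ‖x + -(x - y)‖ := by rw [← sub_eq_add_neg, sub_sub_cancel]
    rw [h1]
    refine (IsUltrametricDist.norm_add_le_max _ _).trans (max_le le_rfl ?_)
    rw [norm_neg]
    exact h.le
  · by_contra hcon
    push Not at hcon
    have h1 : ‖x‖ = ‖(x - y) + y‖ := by rw [sub_add_cancel]
    have h2 : ‖(x - y) + y‖ ≤ max ‖x - y‖ ‖y‖ := IsUltrametricDist.norm_add_le_max _ _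
    have h3 : max ‖x - y‖ ‖y‖ < ‖x‖ := max_lt h hcon
    rw [← h1] at h2
    exact absurd h2 (not_le.mpr h3)

lemma norm_natCast_self : ‖((q : ℕ) : PadicAlgCl q)‖ = (q : ℝ)⁻¹ := by
  have h := Fermat.Agent.S55.H175.norm_padicEmbedding_natCast_self q
  rwa [map_natCast] at h

/-- Open subgroups have uniformizers. -/
theorem exists_isUniformizer {V : Subgroup Gq} (hV : IsOpenL q V) :
    ∃ π : PadicAlgCl q, IsUniformizer q V π := by
  haveI := RelNormH707.finiteIndex_of_isOpenL q hV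
  have hidx : V.index ≠ 0 := Subgroup.FiniteIndex.index_ne_zero
  have hq1 : (1 : ℝ) < q := by exact_mod_cast (Fact.out : q.Prime).one_lt
  have hq0 : (0 : ℝ) < q := by positivity
  -- the set of exponents of fixed elements of norm `< 1`
  let S : Set ℤ := {k | ∃ a : (PadicAlgCl q)ˣ, LFixed q V a ∧ ‖(a : PadicAlgCl q)‖ < 1 ∧
    ‖(a : PadicAlgCl q)‖ ^ V.index = (q : ℝ) ^ k}
  have hqne : ((q : ℕ) : PadicAlgCl q) ≠ 0 := by
    exact_mod_cast (Fact.out : q.Prime).ne_zero
  have hqlt : ‖((q : ℕ) : PadicAlgCl q)‖ < 1 := by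
    rw [norm_natCast_self]
    exact inv_lt_one_of_one_lt₀ hq1
  have hSne : S.Nonempty := by
    have hfix : LFixed q V (Units.mk0 _ hqne) := fun τ _ => by
      apply Units.ext
      show (τ : Gq) ((q : ℕ) : PadicAlgCl q) = ((q : ℕ) : PadicAlgCl q)
      exact map_natCast τ q
    obtain ⟨k, hk⟩ := VdegH707.exists_zpow q V _ hfix
    exact ⟨k, _, hfix, hqlt, hk⟩
  have hSbdd : BddAbove S := by
    refine ⟨0, ?_⟩
    rintro k ⟨a, -, ha1, hak⟩
    by_contra hcon
    push Not at hcon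
    have h1 : (1 : ℝ) ≤ (q : ℝ) ^ k := one_le_zpow₀ hq1.le hcon.le
    have h2 : ‖(a : PadicAlgCl q)‖ ^ V.index < 1 :=
      pow_lt_one₀ (norm_nonneg _) ha1 hidx
    rw [hak] at h2
    exact absurd h1 (not_le.mpr h2)
  obtain ⟨k₀, hk₀S, hk₀max⟩ := Int.exists_greatest_of_bdd
    (P := fun k => k ∈ S) (let ⟨b, hb⟩ := hSbdd; ⟨b, fun z hz => hb hz⟩) hSne
  obtain ⟨a, haf, ha1, hak⟩ := hk₀S
  refine ⟨(a : PadicAlgCl q), fun τ hτ => ?_, a.ne_zero, ha1, fun x hx hx1 => ?_⟩
  · exact congrArg (fun z : (PadicAlgCl q)ˣ => (z : PadicAlgCl q)) (haf τ hτ)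
  · by_cases hx0 : x = 0
    · rw [hx0, norm_zero]; exact norm_nonneg _
    have hxf : LFixed q V (Units.mk0 x hx0) := fun τ hτ => Units.ext (hx τ hτ)
    obtain ⟨k, hk⟩ := VdegH707.exists_zpow q V _ hxf
    have hkS : k ∈ S := ⟨_, hxf, hx1, hk⟩
    have hkle : k ≤ k₀ := hk₀max k hkS
    have h3 : ‖x‖ ^ V.index ≤ ‖(a : PadicAlgCl q)‖ ^ V.index := by
      have h4 : ‖x‖ ^ V.index = (q : ℝ) ^ k := hk
      rw [h4, hak]
      exact zpow_le_zpow_right₀ hq1.le hkle
    exact le_of_pow_le_pow_left₀ hidx (norm_nonneg _) h3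

/-- A uniformizer of the completion of `K = ℚ̄^U` at the place `ι_q ∘ g⁻¹` can be chosen in `K`. -/
theorem exists_global_isUniformizer (g : GQ) {U : Subgroup GQ} (hU : IsOpenQ U) :
    ∃ ϖ : Qb, ϖ ∈ fixedK U ∧ IsUniformizer q (locSub q g U) (padicEmbedding q ((g⁻¹ : GQ) ϖ)) := by
  obtain ⟨π, hπf, hπ0, hπ1, hπmax⟩ := exists_isUniformizer q (H181.isOpenL_locSub q g hU)
  have hπmem : π ∈ locFld q g U := (isFixedBy_iff_mem_locFld q g hU π).1 hπf
  obtain ⟨y, hy, hyπ⟩ := exists_near_of_mem_localLevel q _ hπmem (norm_pos_iff.2 hπ0)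
  obtain ⟨ϖ, hϖ, rfl⟩ := hy
  have hnorm : ‖padicEmbedding q ((g⁻¹ : GQ) ϖ)‖ = ‖π‖ := by
    exact norm_eq_of_norm_sub_lt q hyπ
  refine ⟨ϖ, hϖ, ?_, ?_, ?_, ?_⟩
  · exact (isFixedBy_iff_mem_locFld q g hU _).2 (padicEmbedding_mem_locFld q g U hϖ)
  · rw [← norm_pos_iff, hnorm]; exact norm_pos_iff.2 hπ0
  · rw [hnorm]; exact hπ1
  · intro x hx hx1
    rw [hnorm]
    exact hπmax x hx hx1

end Local

end Fermat.Agent.S55.G.Rec.WAH900

end
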