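import Fermat.Agent.S55.G.Rec.WAH900.Local
import Fermat.Agent.S14.H714.Trans

/-!
# S55 / G / REC : leaf G3 (`WeakApproxSpec`), part 2: places of `K = ℚ̄^U`   (helper900)

* `exists_double_coset_of_same_place` : if `ι_q ∘ g⁻¹` and `ι_q ∘ g'⁻¹` induce the same place of
  `K = ℚ̄^U` (`U` open) then `g' ∈ U g D_q`;
* `absAt q g K` : the absolute value `x ↦ ‖ι_q (g⁻¹ x)‖` on `K`; nontrivial, determined by its
  equivalence class among the absolute values above `q`; inequivalent for different primes;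
* `finite_range_absAt` : finitely many places above `q`;
* `exists_approx` : element form of Mathlib's weak approximation theorem.
-/

set_option autoImplicit false
set_option linter.style.haveILetI false

noncomputable section

namespace Fermat.Agent.S55.G.Rec.WAH900

open Fermat.Agent.S55.G.Rec
open scoped Pointwise

local notation "Qb" => AlgebraicClosure ℚ
local notation "GQ" => (AlgebraicClosure ℚ ≃ₐ[ℚ] AlgebraicClosure ℚ)

section Dict

variable (q : ℕ) [Fact q.Prime]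

lemma mem_smul_padicPlace_iff (g : GQ) (x : Qb) :
    x ∈ g • padicPlace q ↔ ‖padicEmbedding q ((g⁻¹ : GQ) x)‖ ≤ 1 := by
  rw [ValuationSubring.mem_pointwise_smul_iff_inv_smul_mem]
  exact Fermat.Agent.S55.H175.mem_padicPlace_iff_norm q

lemma norm_padicEmbedding_natCast (g : GQ) (n : ℕ) :
    ‖padicEmbedding q ((g⁻¹ : GQ) ((n : ℕ) : Qb))‖ = ‖((n : ℕ) : PadicAlgCl q)‖ := by
  rw [map_natCast, map_natCast]

lemma natCast_mem_nonunits (g : GQ) : ((q : ℕ) : Qb) ∈ (g • padicPlace q).nonunits := by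
  rw [ValuationSubring.mem_nonunits_iff_or]
  right
  rw [mem_smul_padicPlace_iff, map_inv₀, map_inv₀, norm_inv, norm_padicEmbedding_natCast,
    norm_natCast_self, inv_inv, not_le]
  exact_mod_cast (Fact.out : q.Prime).one_lt

/-- **The places of `K = ℚ̄^U` above `q` are the double cosets `U \ G_ℚ / D_q`.**
If `ι_q ∘ g⁻¹` and `ι_q ∘ g'⁻¹` have the same unit ball on `K` then `g' ∈ U g D_q`. -/
theorem exists_double_coset_of_same_place {U : Subgroup GQ} (hU : IsOpenQ U) (g g' : GQ)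
    (h : ∀ x ∈ fixedK U, ‖padicEmbedding q ((g⁻¹ : GQ) x)‖ ≤ 1 ↔
      ‖padicEmbedding q ((g'⁻¹ : GQ) x)‖ ≤ 1) :
    ∃ u ∈ U, ∃ d ∈ (localGaloisToGlobal q).range, g' = u * g * d := by
  have h' : ∀ x ∈ fixedK U, x ∈ g • padicPlace q ↔ x ∈ g' • padicPlace q := by
    intro x hx
    rw [mem_smul_padicPlace_iff, mem_smul_padicPlace_iff]
    exact h x hx
  obtain ⟨ρ, hρ, hρA⟩ := Fermat.Agent.S14.H714.exists_smul_eq_of_inter_eq
    (F := fixedK U) (Fact.out : q.Prime) (natCast_mem_nonunits q g) (natCast_mem_nonunits q g') h'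
  rw [fixingSubgroup_fixedK hU] at hρ
  have hstab : (g⁻¹ * ρ * g') • padicPlace q = padicPlace q := by
    rw [mul_smul, mul_smul, hρA, inv_smul_smul]
  have hmem : g⁻¹ * ρ * g' ∈ (localGaloisToGlobal q).range := by
    rw [Fermat.Agent.S55.H175.range_localGaloisToGlobal]
    exact hstab
  refine ⟨ρ⁻¹, U.inv_mem hρ, g⁻¹ * ρ * g', hmem, ?_⟩
  group

end Dict

/-! ## Absolute values on `K` -/

section Abs

variable (q : ℕ) [Fact q.Prime] (K : IntermediateField ℚ Qb)

/-- The absolute value `x ↦ ‖ι_q (φ x)‖` on `K` attached to an embedding `φ : K → ℚ̄`. -/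
def absOf (φ : K →ₐ[ℚ] Qb) : AbsoluteValue K ℝ where
  toFun x := ‖padicEmbedding q (φ x)‖
  map_mul' x y := by rw [map_mul, map_mul, norm_mul]
  nonneg' x := norm_nonneg _
  eq_zero' x := by rw [norm_eq_zero, map_eq_zero, map_eq_zero]
  add_le' x y := by rw [map_add, map_add]; exact norm_add_le _ _

/-- The embedding `g⁻¹ : K → ℚ̄`. -/
def resInv (g : GQ) : K →ₐ[ℚ] Qb := ((g⁻¹ : GQ) : Qb →ₐ[ℚ] Qb).comp K.val

/-- The absolute value `x ↦ ‖ι_q (g⁻¹ x)‖` on `K`. -/
def absAt (g : GQ) : AbsoluteValue K ℝ := absOf q K (resInv K g)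

@[simp] lemma absAt_apply (g : GQ) (x : K) :
    absAt q K g x = ‖padicEmbedding q ((g⁻¹ : GQ) (x : Qb))‖ := rfl

lemma finite_range_absAt [FiniteDimensional ℚ K] : (Set.range (absAt q K)).Finite := by
  have h : Set.range (absAt q K) ⊆ Set.range (absOf q K) := by
    rintro _ ⟨g, rfl⟩
    exact ⟨resInv K g, rfl⟩
  exact (Set.finite_range _).subset h

lemma absAt_natCast (g : GQ) (n : ℕ) :
    absAt q K g (n : K) = ‖((n : ℕ) : PadicAlgCl q)‖ := by
  rw [absAt_apply]
  exact norm_padicEmbedding_natCast q g n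

lemma absAt_natCast_self (g : GQ) : absAt q K g (q : K) = (q : ℝ)⁻¹ := by
  rw [absAt_natCast, norm_natCast_self]

lemma norm_natCast_of_ne {p : ℕ} (hp : p.Prime) (hpq : p ≠ q) :
    ‖((p : ℕ) : PadicAlgCl q)‖ = 1 := by
  have h1 : ((p : ℕ) : PadicAlgCl q) = algebraMap ℚ_[q] (PadicAlgCl q) (p : ℚ_[q]) := by
    rw [map_natCast]
  rw [h1, norm_algebraMap', Padic.norm_natCast_eq_one_iff]
  exact (Nat.coprime_primes (Fact.out : q.Prime) hp).2 (Ne.symm hpq)

lemma absAt_natCast_of_ne (g : GQ) {p : ℕ} (hp : p.Prime) (hpq : p ≠ q) :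
    absAt q K g (p : K) = 1 := by
  rw [absAt_natCast, norm_natCast_of_ne q hp hpq]

end Abs

/-- An absolute value on `K` is above `q`. -/
def IsAbove {K : Type*} [Field K] (q : ℕ) (v : AbsoluteValue K ℝ) : Prop :=
  v (q : K) = (q : ℝ)⁻¹ ∧ ∀ p : ℕ, p.Prime → p ≠ q → v (p : K) = 1

lemma isAbove_absAt (q : ℕ) [Fact q.Prime] (K : IntermediateField ℚ Qb) (g : GQ) :
    IsAbove q (absAt q K g) :=
  ⟨absAt_natCast_self q K g, fun _ hp hpq => absAt_natCast_of_ne q K g hp hpq⟩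

section IsAbove

variable {K : Type*} [Field K] {q : ℕ}

lemma IsAbove.isNontrivial [CharZero K] (hq : q.Prime) {v : AbsoluteValue K ℝ}
    (hv : IsAbove q v) : v.IsNontrivial := by
  refine ⟨(q : K), by exact_mod_cast hq.ne_zero, ?_⟩
  rw [hv.1]
  have hq1 : (1 : ℝ) < q := by exact_mod_cast hq.one_lt
  exact (inv_lt_one_of_one_lt₀ hq1).ne

/-- Equivalent absolute values above the same prime are equal. -/
lemma IsAbove.eq_of_isEquiv (hq : q.Prime) {v w : AbsoluteValue K ℝ}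
    (hv : IsAbove q v) (hw : IsAbove q w) (h : v.IsEquiv w) : v = w := by
  obtain ⟨c, hc, hvw⟩ := AbsoluteValue.isEquiv_iff_exists_rpow_eq.1 h
  have hq1 : (1 : ℝ) < q := by exact_mod_cast hq.one_lt
  have hq0 : (0 : ℝ) < q := by positivity
  have h1 : (v (q : K)) ^ c = w (q : K) := congrFun hvw (q : K)
  rw [hv.1, hw.1] at h1
  have hc1 : c = 1 := by
    have h2 : ((q : ℝ)⁻¹) ^ c = ((q : ℝ)⁻¹) ^ (1 : ℝ) := by rw [h1, Real.rpow_one]
    have hinv0 : (0 : ℝ) < (q : ℝ)⁻¹ := inv_pos.2 hq0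
    have hinv1 : (q : ℝ)⁻¹ ≠ 1 := (inv_lt_one_of_one_lt₀ hq1).ne
    have h3 := congrArg Real.log h2
    rw [Real.log_rpow hinv0, Real.log_rpow hinv0] at h3
    have hlog : Real.log ((q : ℝ)⁻¹) ≠ 0 := by
      intro h0
      rcases Real.log_eq_zero.1 h0 with h4 | h4 | h4
      · exact hinv0.ne' h4
      · exact hinv1 h4
      · linarith
    exact mul_right_cancel₀ hlog h3
  subst hc1
  ext x
  have := congrFun hvw x
  simpa using this

/-- Absolute values above different primes are inequivalent. -/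
lemma IsAbove.not_isEquiv {p : ℕ} (hp : p.Prime) (hpq : p ≠ q) {v w : AbsoluteValue K ℝ}
    (hv : IsAbove p v) (hw : IsAbove q w) : ¬ v.IsEquiv w := by
  intro h
  have h1 : v (p : K) < 1 := by
    rw [hv.1]
    have hp1 : (1 : ℝ) < p := by exact_mod_cast hp.one_lt
    exact inv_lt_one_of_one_lt₀ hp1
  have h2 : w (p : K) < 1 := h.lt_one_iff.1 h1
  rw [hw.2 p hp hpq] at h2
  exact lt_irrefl _ h2

end IsAbove

/-! ## Weak approximation, element form -/

/-- **Weak approximation** for finitely many pairwise inequivalent nontrivial absolute values. -/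
theorem exists_approx {K : Type*} [Field K] {ι : Type*} [Finite ι] (v : ι → AbsoluteValue K ℝ)
    (h : ∀ i, (v i).IsNontrivial) (hv : Pairwise fun i j ↦ ¬(v i).IsEquiv (v j))
    (z : ι → K) (ε : ι → ℝ) (hε : ∀ i, 0 < ε i) : ∃ a : K, ∀ i, v i (a - z i) < ε i := by
  classical
  haveI := Fintype.ofFinite ι
  rcases isEmpty_or_nonempty ι with hι | hι
  · exact ⟨0, fun i => (hι.false i).elim⟩
  obtain ⟨i₀, hi₀⟩ := Finite.exists_min ε
  have hd := AbsoluteValue.denseRange_algebraMap_pi h hv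
  obtain ⟨a, ha⟩ := hd.exists_dist_lt (fun i => WithAbs.toAbs (v i) (z i)) (hε i₀)
  refine ⟨a, fun i => ?_⟩
  have h1 := (dist_pi_lt_iff (hε i₀)).1 ha i
  rw [dist_comm, dist_eq_norm] at h1
  have h2 : (algebraMap K ((i : ι) → WithAbs (v i)) a) i - WithAbs.toAbs (v i) (z i) =
      WithAbs.toAbs (v i) (a - z i) := rfl
  rw [h2, WithAbs.norm_toAbs_eq] at h1
  exact h1.trans_le (hi₀ i)

end Fermat.Agent.S55.G.Rec.WAH900

end
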